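import Mathlib
import Fermat.Agent.S25.DefsDict
import Fermat.Agent.S25.H445.InvertibleAffine

universe u
open CategoryTheory AlgebraicGeometry Opposite TopologicalSpace

namespace Fermat.Agent.S25.H85

variable {X : Scheme.{u}} {V : X.Opens} (hV : IsAffineOpen V)

lemma fromSpec_image_le (U' : (Spec Γ(X, V)).Opens) : hV.fromSpec ''ᵁ U' ≤ V := by
  conv_rhs => rw [← hV.opensRange_fromSpec]
  exact Scheme.Hom.image_le_opensRange _ _

lemma le_fromSpec_preimage (U' : (Spec Γ(X, V)).Opens) : U' ≤ hV.fromSpec ⁻¹ᵁ V := by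
  rw [hV.fromSpec_preimage_self]; exact le_top

lemma fromSpec_appLE_self (U' : (Spec Γ(X, V)).Opens) :
    hV.fromSpec.appLE V U' (le_fromSpec_preimage hV U') =
      (Scheme.ΓSpecIso Γ(X, V)).inv ≫ (Spec Γ(X, V)).presheaf.map U'.leTop.op := by
  rw [Scheme.Hom.appLE, hV.fromSpec_app_self, Category.assoc, ← Functor.map_comp]
  rfl

/-- scalar compatibility for `fromSpec` -/
lemma appIso_inv_res_ΓSpecIso_inv (U' : (Spec Γ(X, V)).Opens) (r : Γ(X, V)) :
    (hV.fromSpec.appIso U').inv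
        ((Spec Γ(X, V)).presheaf.map U'.leTop.op ((Scheme.ΓSpecIso Γ(X, V)).inv r)) =
      X.presheaf.map (homOfLE (fromSpec_image_le hV U')).op r := by
  have h := Scheme.Hom.appLE_appIso_inv hV.fromSpec (le_fromSpec_preimage hV U')
  rw [fromSpec_appLE_self] at h
  exact congr($h r)

lemma fromSpec_image_top : hV.fromSpec ''ᵁ ⊤ = V := by
  rw [Scheme.Hom.image_top_eq_opensRange, hV.opensRange_fromSpec]

variable (L : X.Modules)

/-- The `Γ(X, V)`-action on sections of the restriction of `L` to `Spec Γ(X, V)`. -/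
lemma smul_restrict_fromSpec (U' : (Spec Γ(X, V)).Opens) (r : Γ(X, V))
    (x : Γ(L.restrict hV.fromSpec, U')) :
    (r • x : Γ(L.restrict hV.fromSpec, U')) =
      (show Γ(L, hV.fromSpec ''ᵁ U') from
        (resRing (fromSpec_image_le hV U') r) • (show Γ(L, hV.fromSpec ''ᵁ U') from x)) := by
  rw [Scheme.Modules.smul_Spec_def]
  have := Scheme.Modules.smul_restrictAppIso_hom_apply hV.fromSpec L U'
    ((Spec Γ(X, V)).presheaf.map U'.leTop.op ((Scheme.ΓSpecIso Γ(X, V)).inv r)) x
  rw [appIso_inv_res_ΓSpecIso_inv] at this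
  exact this

section ResLemmas

lemma resMod_resMod {U₁ U₂ U₃ : X.Opens} (h₁₂ : U₂ ≤ U₁) (h₂₃ : U₃ ≤ U₂) (s : Γ(L, U₁)) :
    resMod L h₂₃ (resMod L h₁₂ s) = resMod L (h₂₃.trans h₁₂) s := by
  simp only [resMod]
  rw [← ConcreteCategory.comp_apply, ← Functor.map_comp]
  rfl

lemma resRing_resRing {U₁ U₂ U₃ : X.Opens} (h₁₂ : U₂ ≤ U₁) (h₂₃ : U₃ ≤ U₂) (s : Γ(X, U₁)) :
    resRing h₂₃ (resRing h₁₂ s) = resRing (h₂₃.trans h₁₂) s := by
  simp only [resRing]
  rw [← CommRingCat.comp_apply, ← Functor.map_comp]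
  rfl

lemma resMod_smul {U₁ U₂ : X.Opens} (h : U₂ ≤ U₁) (r : Γ(X, U₁)) (s : Γ(L, U₁)) :
    resMod L h (r • s) = resRing h r • resMod L h s :=
  Scheme.Modules.map_smul L (homOfLE h) r s

lemma resMod_bijective_of_eq {U₁ U₂ : X.Opens} (h : U₂ = U₁) :
    Function.Bijective (resMod L h.le) := by
  subst h
  have : resMod L (le_refl U₂) = AddMonoidHom.id _ := by
    ext s
    simp only [resMod]
    have : (homOfLE (le_refl U₂)).op = 𝟙 (op U₂) := rfl
    rw [this, L.presheaf.map_id]
    rfl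
  rw [this]
  exact Function.bijective_id

end ResLemmas


section Localization

variable [L.IsQuasicoherent]

lemma isLocalizing_restrict_fromSpec :
    IsLocalizing (modulesSpecToSheaf.obj (L.restrict hV.fromSpec)) := by
  have hq : IsIso (L.restrict hV.fromSpec).fromTildeΓ := inferInstance
  rwa [isIso_fromTildeΓ_iff_isLocalizing] at hq

set_option backward.isDefEq.respectTransparency false in
include hV in
theorem exists_pow_smul_eq_resMod (f : Γ(X, V)) {W : X.Opens}
    (hW : W = X.basicOpen f) (hWV : W ≤ V) (t : Γ(L, W)) :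
    ∃ (n : ℕ) (s : Γ(L, V)), resRing hWV (f ^ n) • t = resMod L hWV s := by
  have hloc := isLocalizing_restrict_fromSpec hV L f
  have e₁ : hV.fromSpec ''ᵁ ⊤ = V := fromSpec_image_top hV
  have e₂ : hV.fromSpec ''ᵁ (PrimeSpectrum.basicOpen f) = W := by
    rw [hW]; exact hV.fromSpec_image_basicOpen f
  let t' : Γ(L.restrict hV.fromSpec, PrimeSpectrum.basicOpen f) := resMod L e₂.le t
  obtain ⟨⟨x, ⟨_, n, rfl⟩⟩, hx⟩ := hloc.surj t'
  obtain ⟨s, hs⟩ := (resMod_bijective_of_eq L e₁).2 (show Γ(L, hV.fromSpec ''ᵁ ⊤) from x)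
  refine ⟨n, s, ?_⟩
  apply (resMod_bijective_of_eq L e₂).1
  rw [resMod_smul, resRing_resRing, resMod_resMod]
  have hx' : (f ^ n • t' : Γ(L.restrict hV.fromSpec, PrimeSpectrum.basicOpen f)) =
      resMod L (Scheme.Hom.image_mono _ le_top) (show Γ(L, hV.fromSpec ''ᵁ ⊤) from x) := hx
  rw [smul_restrict_fromSpec] at hx'
  rw [← hs, resMod_resMod] at hx'
  exact hx'

set_option backward.isDefEq.respectTransparency false in
include hV in
theorem exists_pow_smul_eq_of_resMod_eq (f : Γ(X, V)) {W : X.Opens}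
    (hW : W = X.basicOpen f) (hWV : W ≤ V) (s₁ s₂ : Γ(L, V))
    (h : resMod L hWV s₁ = resMod L hWV s₂) :
    ∃ n : ℕ, (f ^ n : Γ(X, V)) • s₁ = (f ^ n : Γ(X, V)) • s₂ := by
  have hloc := isLocalizing_restrict_fromSpec hV L f
  have e₁ : hV.fromSpec ''ᵁ ⊤ = V := fromSpec_image_top hV
  have e₂ : hV.fromSpec ''ᵁ (PrimeSpectrum.basicOpen f) = W := by
    rw [hW]; exact hV.fromSpec_image_basicOpen f
  let x₁ : Γ(L.restrict hV.fromSpec, ⊤) := resMod L e₁.le s₁
  let x₂ : Γ(L.restrict hV.fromSpec, ⊤) := resMod L e₁.le s₂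
  have hx : resMod L (Scheme.Hom.image_mono hV.fromSpec (le_top : PrimeSpectrum.basicOpen f ≤ ⊤))
      (resMod L e₁.le s₁) =
      resMod L (Scheme.Hom.image_mono hV.fromSpec (le_top : PrimeSpectrum.basicOpen f ≤ ⊤))
      (resMod L e₁.le s₂) := by
    rw [resMod_resMod, resMod_resMod]
    have := congrArg (resMod L e₂.le) h
    rwa [resMod_resMod, resMod_resMod] at this
  have hx2 : ((modulesSpecToSheaf.obj (L.restrict hV.fromSpec)).obj.map
      (PrimeSpectrum.basicOpen f).leTop.op).hom x₁ =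
      ((modulesSpecToSheaf.obj (L.restrict hV.fromSpec)).obj.map
      (PrimeSpectrum.basicOpen f).leTop.op).hom x₂ := hx
  obtain ⟨c, hc⟩ := hloc.exists_of_eq hx2
  obtain ⟨c, n, hn⟩ := c
  simp only at hn
  refine ⟨n, ?_⟩
  apply (resMod_bijective_of_eq L e₁).1
  rw [resMod_smul, resMod_smul]
  have hn' : ((f ^ n : Γ(X, V)) • x₁ : Γ(L.restrict hV.fromSpec, ⊤)) = (f ^ n : Γ(X, V)) • x₂ := by
    rw [hn]; exact hc
  rw [smul_restrict_fromSpec hV L ⊤ (f ^ n) x₁, smul_restrict_fromSpec hV L ⊤ (f ^ n) x₂] at hn'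
  exact hn'

end Localization

section Invertible

/-- Restriction of an invertible module along an open immersion is invertible. -/
theorem isInvertible_restrict {X Y : Scheme.{u}} (f : Y ⟶ X) [IsOpenImmersion f]
    {M : X.Modules} (hM : Scheme.Modules.IsInvertible M) :
    Scheme.Modules.IsInvertible (M.restrict f) := by
  have h := hM.pullback f
  refine ⟨fun x => ?_⟩
  obtain ⟨U, hxU, ⟨e⟩⟩ := h.exists_trivialization x
  exact ⟨U, hxU, ⟨(Scheme.Modules.pullback U.ι).mapIso
    ((Scheme.Modules.restrictFunctorIsoPullback f).app M) ≪≫ e⟩⟩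

/-- `Γ(L, V) → Γ(L|_{Spec Γ(X,V)}, ⊤)` as a `Γ(X, V)`-linear equivalence. -/
noncomputable def sectionsEquivRestrict :
    Γ(L, V) ≃ₗ[Γ(X, V)] ((moduleSpecΓFunctor (R := Γ(X, V))).obj (L.restrict hV.fromSpec)) :=
  LinearEquiv.ofBijective
    { toFun := fun s => (show Γ(L.restrict hV.fromSpec, ⊤) from
        resMod L (fromSpec_image_top hV).le s)
      map_add' := fun s t => map_add _ s t
      map_smul' := fun r s => by
        change resMod L _ (r • s) = (r • (show Γ(L.restrict hV.fromSpec, ⊤) from _))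
        rw [smul_restrict_fromSpec, resMod_smul] }
    (resMod_bijective_of_eq L (fromSpec_image_top hV))

include hV in
/-- The sections of an invertible module over an affine open form an invertible module. -/
theorem invertible_sections (hL : Scheme.Modules.IsInvertible L) :
    Module.Invertible Γ(X, V) Γ(L, V) := by
  have h1 : Module.Invertible Γ(X, V)
      ((moduleSpecΓFunctor (R := Γ(X, V))).obj (L.restrict hV.fromSpec)) :=
    H445.invertible_Γ_of_isInvertible (isInvertible_restrict hV.fromSpec hL)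
  exact Module.Invertible.congr (sectionsEquivRestrict hV L).symm

end Invertible

end Fermat.Agent.S25.H85
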