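import Mathlib
import Fermat.Agent.S25.DefsDict

/-!
# S25 / DICT (helper85): the ring of functions on the preimage of an affine chart

For an affine open `U ⊆ C` with `i : Γ(C, U) ≃+* B` (compatible with the `k`-structures), the ring
of functions of `C_A = pullback c (specStr k A)` on the preimage of `U` is `A ⊗[k] B`.
-/

set_option autoImplicit false

universe u

open CategoryTheory CategoryTheory.Limits AlgebraicGeometry AlgebraicGeometry.RelPicard
  NeronModelInfra Opposite TopologicalSpace
open scoped TensorProduct

namespace Fermat.Agent.S25.H85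

noncomputable section

/-- a version of `le_top` with the right syntactic type -/
lemma le_preimage_top' {X Y : Scheme.{u}} (f : X ⟶ Y) (V : X.Opens) : V ≤ f ⁻¹ᵁ ⊤ := le_top

variable {k : Type u} [Field k] {C : Scheme.{u}} (c : C ⟶ Spec (CommRingCat.of k))
  (A : Type u) [CommRing A] [Algebra k A]

/-- the preimage of an affine open of `C` in `C_A` is affine -/
theorem isAffineOpen_preimageOpen {U : C.Opens} (hU : IsAffineOpen U) :
    IsAffineOpen (preimageOpen (c := c) A U) := by
  have H : IsPullback (pullback.fst c (specStr k A)) (pullback.snd c (specStr k A)) c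
      (specStr k A) := IsPullback.of_hasPullback c _
  have : IsAffine U := hU
  have hUY : preimageOpen (c := c) A U =
      (pullback.fst c (specStr k A)) ⁻¹ᵁ U ⊓ (pullback.snd c (specStr k A)) ⁻¹ᵁ ⊤ := by simp
  have : IsAffine (⊤ : (Spec (CommRingCat.of A)).Opens) := isAffineOpen_top _
  have : IsAffine (⊤ : (Spec (CommRingCat.of k)).Opens) := isAffineOpen_top _
  exact .of_isIso (Scheme.Hom.isPullback_resLE H (US := ⊤) (UT := ⊤) (UX := U)
    (by simp) (by simp) hUY).isoPullback.hom

/-- the geometric pushout square -/
theorem isPushout_preimageOpen {U : C.Opens} (hU : IsAffineOpen U) :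
    IsPushout (c.appLE ⊤ U (le_preimage_top' _ _)) ((specStr k A).appLE ⊤ ⊤ (le_preimage_top' _ _))
      ((pullback.fst c (specStr k A)).appLE U (preimageOpen (c := c) A U) le_rfl)
      ((pullback.snd c (specStr k A)).appLE ⊤ (preimageOpen (c := c) A U)
        (le_preimage_top' _ _)) := by
  have H : IsPullback (pullback.fst c (specStr k A)) (pullback.snd c (specStr k A)) c
      (specStr k A) := IsPullback.of_hasPullback c _
  have hUY : preimageOpen (c := c) A U =
      (pullback.fst c (specStr k A)) ⁻¹ᵁ U ⊓ (pullback.snd c (specStr k A)) ⁻¹ᵁ ⊤ := by simp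
  exact (isIso_pushoutSection_iff H (US := ⊤) (UT := ⊤) (UX := U) (by simp) (by simp) hUY).mp
    (isIso_pushoutSection_of_isAffineOpen H (by simp) (by simp) hUY (isAffineOpen_top _)
      (isAffineOpen_top _) hU)

section Equiv

variable {c A}
variable {U : C.Opens} (hU : IsAffineOpen U) {B : Type u} [CommRing B] [Algebra k B]
  (i : Γ(C, U) ≃+* B) (hi : ∀ a : k, i (sectionsStr c U a) = algebraMap k B a)

lemma sectionsStr_eq (a : k) :
    sectionsStr c U a =
      c.appLE ⊤ U (le_preimage_top' _ _) ((Scheme.ΓSpecIso (CommRingCat.of k)).inv a) := by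
  simp only [sectionsStr, Scheme.Hom.appLE, Scheme.Hom.appTop]
  rfl

lemma baseToSections_eq (V : (pullback c (specStr k A)).Opens) (a : A) :
    baseToSections (c := c) A V a =
      (pullback.snd c (specStr k A)).appLE ⊤ V (le_preimage_top' _ _)
        ((Scheme.ΓSpecIso (CommRingCat.of A)).inv a) := by
  simp only [baseToSections, Scheme.Hom.appLE, Scheme.Hom.appTop]
  rfl

lemma curveToSections_eq (f : Γ(C, U)) :
    curveToSections (c := c) A U f =
      (pullback.fst c (specStr k A)).appLE U (preimageOpen (c := c) A U) le_rfl f := by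
  simp only [curveToSections, Scheme.Hom.app_eq_appLE]

include hU hi in
/-- the algebraic pushout square -/
theorem isPushout_chart :
    IsPushout (CommRingCat.ofHom (algebraMap k A)) (CommRingCat.ofHom (algebraMap k B))
      (CommRingCat.ofHom (baseToSections (c := c) A (preimageOpen (c := c) A U)))
      (CommRingCat.ofHom ((curveToSections (c := c) A U).comp i.symm.toRingHom)) := by
  refine ((isPushout_preimageOpen c A hU).of_iso (Scheme.ΓSpecIso (CommRingCat.of k))
    i.toCommRingCatIso (Scheme.ΓSpecIso (CommRingCat.of A)) (Iso.refl _) ?_ ?_ ?_ ?_).flip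
  · ext x
    obtain ⟨a, rfl⟩ : ∃ a, (Scheme.ΓSpecIso (CommRingCat.of k)).inv a = x :=
      ⟨(Scheme.ΓSpecIso (CommRingCat.of k)).hom x, by simp⟩
    have := hi a
    rw [sectionsStr_eq] at this
    simpa using this
  · have h1 : (specStr k A).appLE ⊤ ⊤ (le_preimage_top' _ _) = (specStr k A).appTop := by
      simp only [Scheme.Hom.appLE, Scheme.Hom.appTop]
      exact (congrArg (fun m => (specStr k A).app ⊤ ≫ m)
        ((Spec (CommRingCat.of A)).presheaf.map_id _)).trans (Category.comp_id _)
    rw [h1]
    exact Scheme.ΓSpecIso_naturality (CommRingCat.ofHom (algebraMap k A))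
  · ext f
    simp [curveToSections_eq]
  · ext x
    obtain ⟨a, rfl⟩ : ∃ a, (Scheme.ΓSpecIso (CommRingCat.of A)).inv a = x :=
      ⟨(Scheme.ΓSpecIso (CommRingCat.of A)).hom x, by simp⟩
    simp [baseToSections_eq]

/-- the ring of functions on the preimage of the chart `U` is `A ⊗[k] B` -/
def chartEquiv : A ⊗[k] B ≃+* Γ(pullback c (specStr k A), preimageOpen (c := c) A U) :=
  ((CommRingCat.isPushout_tensorProduct k A B).isoIsPushout _ _
    (isPushout_chart hU i hi)).commRingCatIsoToRingEquiv

lemma chartEquiv_tmul_one (a : A) :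
    chartEquiv hU i hi (a ⊗ₜ[k] (1 : B)) =
      baseToSections (c := c) A (preimageOpen (c := c) A U) a := by
  have := IsPushout.inl_isoIsPushout_hom _ _ (CommRingCat.isPushout_tensorProduct k A B)
    (isPushout_chart hU i hi)
  exact congr($this a)

lemma chartEquiv_one_tmul (b : B) :
    chartEquiv hU i hi ((1 : A) ⊗ₜ[k] b) = curveToSections (c := c) A U (i.symm b) := by
  have := IsPushout.inr_isoIsPushout_hom _ _ (CommRingCat.isPushout_tensorProduct k A B)
    (isPushout_chart hU i hi)
  exact congr($this b)

lemma chartEquiv_tmul (a : A) (b : B) :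
    chartEquiv hU i hi (a ⊗ₜ[k] b) =
      baseToSections (c := c) A (preimageOpen (c := c) A U) a *
        curveToSections (c := c) A U (i.symm b) := by
  rw [← chartEquiv_tmul_one hU i hi, ← chartEquiv_one_tmul hU i hi, ← map_mul,
    Algebra.TensorProduct.tmul_mul_tmul, mul_one, one_mul]

end Equiv

section Restriction

variable {c A}
variable {U U' : C.Opens} (hU : IsAffineOpen U) (hU' : IsAffineOpen U') (hle : U' ≤ U)
  {B B' : Type u} [CommRing B] [Algebra k B] [CommRing B'] [Algebra k B'] [Algebra B B']
  [IsScalarTower k B B']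
  (i : Γ(C, U) ≃+* B) (hi : ∀ a : k, i (sectionsStr c U a) = algebraMap k B a)
  (i' : Γ(C, U') ≃+* B') (hi' : ∀ a : k, i' (sectionsStr c U' a) = algebraMap k B' a)
  (hres : ∀ f : Γ(C, U), i' (resRing hle f) = algebraMap B B' (i f))

include hle in
lemma preimageOpen_mono : preimageOpen (c := c) A U' ≤ preimageOpen (c := c) A U :=
  Scheme.Hom.preimage_mono _ hle

lemma resRing_baseToSections {V V' : (pullback c (specStr k A)).Opens} (h : V' ≤ V) (a : A) :
    resRing h (baseToSections (c := c) A V a) = baseToSections (c := c) A V' a := by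
  simp only [resRing, baseToSections, CommRingCat.hom_comp, RingHom.comp_apply]
  rw [← CommRingCat.comp_apply, ← Functor.map_comp]
  rfl

lemma resRing_curveToSections (f : Γ(C, U)) :
    resRing (preimageOpen_mono (c := c) (A := A) hle) (curveToSections (c := c) A U f) =
      curveToSections (c := c) A U' (resRing hle f) := by
  simp only [resRing, curveToSections]
  have := (pullback.fst c (specStr k A)).naturality (homOfLE hle).op
  exact (congr($this f)).symm

include hres in
/-- compatibility of the chart isomorphisms with restriction -/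
theorem chartEquiv_tensorMapRight (z : A ⊗[k] B) :
    chartEquiv hU' i' hi' (tensorMapRight k A B B' z) =
      resRing (preimageOpen_mono (c := c) (A := A) hle) (chartEquiv hU i hi z) := by
  induction z using TensorProduct.induction_on with
  | zero => simp
  | add z w hz hw => simp only [map_add, hz, hw]
  | tmul a b =>
    have h1 : tensorMapRight k A B B' (a ⊗ₜ[k] b) = a ⊗ₜ[k] algebraMap B B' b := by
      simp [tensorMapRight]
    rw [h1, chartEquiv_tmul, chartEquiv_tmul, map_mul, resRing_baseToSections,
      resRing_curveToSections (hle := hle)]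
    congr 2
    apply i'.injective
    rw [hres]
    simp

end Restriction

end

end Fermat.Agent.S25.H85
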