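import Mathlib
import Fermat.Agent.S25.DefsAlg

/-!
# S25 / DICT (helper85): semilinear base change, algebra lemmas

* `isSemilinearBaseChange_of_tensorEquiv` : a `T`-linear equivalence `T ⊗[S] N ≃ T` gives a
  semilinear base change map `N → T`.
* `isSemilinearBaseChange_of_ringEquiv` : transport of semilinear base changes along a ring
  isomorphism of the source ring.
-/

set_option autoImplicit false
set_option linter.style.haveILetI false

universe u

open scoped TensorProduct

namespace Fermat.Agent.S25.H85

section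

variable {S T : Type u} [CommRing S] [CommRing T] (ψ : S →+* T)
  {N : Type u} [AddCommGroup N] [Module S N]

/-- The semilinear map `N → P` attached to a `T`-linear map `T ⊗[S] N → P`. -/
def semilinearOfTensor {P : Type u} [AddCommGroup P] [Module T P]
    (e : letI := ψ.toAlgebra; T ⊗[S] N →ₗ[T] P) : N →ₛₗ[ψ] P :=
  letI := ψ.toAlgebra
  { toFun := fun n => e ((1 : T) ⊗ₜ[S] n)
    map_add' := fun m n => by rw [TensorProduct.tmul_add, map_add]
    map_smul' := fun s n => by
      have h1 : ((1 : T) ⊗ₜ[S] (s • n)) = ψ s • ((1 : T) ⊗ₜ[S] n) := by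
        rw [TensorProduct.tmul_smul, TensorProduct.smul_tmul', TensorProduct.smul_tmul',
          Algebra.smul_def, mul_one, smul_eq_mul, mul_one]
        rfl
      rw [h1, map_smul] }

theorem isSemilinearBaseChange_of_tensorEquiv {P : Type u} [AddCommGroup P] [Module T P]
    (e : letI := ψ.toAlgebra; T ⊗[S] N ≃ₗ[T] P) :
    IsSemilinearBaseChange ψ (semilinearOfTensor ψ (N := N)
      (letI := ψ.toAlgebra; e.toLinearMap)) := by
  letI := ψ.toAlgebra
  letI : Module S P := Module.compHom P ψ
  haveI : IsScalarTower S T P := ⟨fun r r' n => by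
    change (ψ r * r') • n = ψ r • (r' • n); rw [mul_smul]⟩
  exact IsBaseChange.of_equiv e (fun x => rfl)

end

section Transport

variable {R S T : Type u} [CommRing R] [CommRing S] [CommRing T]

/-- change of the base ring of an `IsBaseChange` along a ring isomorphism -/
theorem isBaseChange_of_ringEquiv [Algebra R T] [Algebra S T] (j : R ≃+* S)
    (hj : ∀ r, algebraMap S T (j r) = algebraMap R T r)
    {N P : Type u} [AddCommGroup N] [AddCommGroup P] [Module R N] [Module S N] [Module T P]
    [Module R P] [Module S P] [IsScalarTower R T P] [IsScalarTower S T P]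
    (hN : ∀ (r : R) (n : N), r • n = j r • n)
    (f₀ : N →ₗ[S] P) (hf₀ : IsBaseChange T f₀) (f : N →ₗ[R] P) (hf : ∀ n, f n = f₀ n) :
    IsBaseChange T f := by
  refine IsBaseChange.of_lift_unique f (fun Q _ _ _ _ g => ?_)
  letI : Module S Q := Module.compHom Q (algebraMap S T)
  haveI : IsScalarTower S T Q := ⟨fun s t q => by
    rw [Algebra.smul_def, mul_smul]; rfl⟩
  have hsR : ∀ (s : S) (q : Q), s • q = (j.symm s) • q := fun s q => by
    change algebraMap S T s • q = _
    rw [← j.apply_symm_apply s, hj, RingEquiv.symm_apply_apply, algebraMap_smul]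
  let g₀ : N →ₗ[S] Q :=
    { toFun := g
      map_add' := g.map_add
      map_smul' := fun s n => by
        have : s • n = (j.symm s) • n := by rw [hN, RingEquiv.apply_symm_apply]
        rw [this, g.map_smul, RingHom.id_apply, hsR] }
  refine ⟨hf₀.lift g₀, ?_, fun g'' hg'' => ?_⟩
  · ext n
    change hf₀.lift g₀ (f n) = g n
    rw [hf, hf₀.lift_eq]
    rfl
  · apply hf₀.algHom_ext
    intro n
    rw [hf₀.lift_eq, ← hf]
    exact congr($hg'' n)

/-- transport of semilinear base changes along a ring isomorphism of the source ring -/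
theorem isSemilinearBaseChange_of_ringEquiv (j : R ≃+* S) (ε : R →+* T) (ψ : S →+* T)
    (hψ : ∀ r, ψ (j r) = ε r)
    {N P : Type u} [AddCommGroup N] [AddCommGroup P] [Module R N] [Module S N] [Module T P]
    (hN : ∀ (r : R) (n : N), r • n = j r • n)
    (b₀ : N →ₛₗ[ψ] P) (hb₀ : IsSemilinearBaseChange ψ b₀) (b : N →ₛₗ[ε] P)
    (hb : ∀ n, b n = b₀ n) :
    IsSemilinearBaseChange ε b := by
  letI algS : Algebra S T := ψ.toAlgebra
  letI algR : Algebra R T := ε.toAlgebra
  letI mS : Module S P := Module.compHom P ψ
  letI mR : Module R P := Module.compHom P ε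
  haveI : IsScalarTower S T P := ⟨fun r r' n => by
    change (ψ r * r') • n = ψ r • (r' • n); rw [mul_smul]⟩
  haveI : IsScalarTower R T P := ⟨fun r r' n => by
    change (ε r * r') • n = ε r • (r' • n); rw [mul_smul]⟩
  exact isBaseChange_of_ringEquiv j hψ hN _ hb₀ _ hb

end Transport

end Fermat.Agent.S25.H85
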