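import Mathlib
import Fermat.Agent.S25.DefsAlg
import Fermat.Agent.S25.H85.RigAlg

/-!
# S25 / DICT (helper85): gluing data from "raw" sections data

Pure algebra.  A `RawGlue` consists of modules `N₀, N₁, N₀₁` over rings `S₀, S₁, S₀₁` which are
identified with the rings `R₀, R₁, R₀₁` of a cospan by ring isomorphisms, together with
restriction maps which are localizations.  It produces a `GlueDatum` with the same underlying
types.
-/

set_option autoImplicit false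
set_option linter.style.haveILetI false

universe u

open scoped TensorProduct

namespace Fermat.Agent.S25.H85

/-- transport of invertibility along a ring isomorphism -/
theorem invertible_of_ringEquiv {R S : Type*} [CommRing R] [CommRing S] (j : R ≃+* S)
    (N : Type*) [AddCommGroup N] [Module S N] [Module R N]
    (h : ∀ (r : R) (n : N), r • n = j r • n) [Module.Invertible S N] :
    Module.Invertible R N := by
  letI : Algebra S R := j.symm.toRingHom.toAlgebra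
  have halg : ∀ s : S, algebraMap S R s = j.symm s := fun _ => rfl
  haveI : IsScalarTower S R N := ⟨fun s r n => by
    rw [h, h, Algebra.smul_def, map_mul, halg, RingEquiv.apply_symm_apply, mul_smul]⟩
  haveI : IsLocalization (⊥ : Submonoid S) R :=
    IsLocalization.of_le_isUnit_of_bijective (by
      rintro _ ⟨x, hx, rfl⟩
      rw [Submonoid.mem_bot.mp hx, map_one]
      exact isUnit_one) j.symm.bijective
  haveI := isLocalizedModule_id (⊥ : Submonoid S) N R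
  exact Module.Invertible.of_isLocalization (⊥ : Submonoid S) (LinearMap.id : N →ₗ[S] N)

/-- a map which "looks like" a localization away from `x` is a base change -/
theorem isBaseChange_of_away {R R' : Type*} [CommRing R] [CommRing R'] [Algebra R R'] (x : R)
    [IsLocalization.Away x R'] {N N' : Type*} [AddCommGroup N] [AddCommGroup N'] [Module R N]
    [Module R N'] [Module R' N'] [IsScalarTower R R' N'] (f : N →ₗ[R] N')
    (hsurj : ∀ t : N', ∃ (n : ℕ) (s : N), (x ^ n) • t = f s)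
    (hker : ∀ s s' : N, f s = f s' → ∃ n : ℕ, (x ^ n) • s = (x ^ n) • s') :
    IsBaseChange R' f := by
  have : IsLocalizedModule (Submonoid.powers x) f :=
    { map_units := fun s => by
        rw [← (Algebra.lsmul R (A := R') R N').commutes]
        exact (IsLocalization.map_units R' s).map _
      surj := fun t => by
        obtain ⟨n, s, h⟩ := hsurj t
        exact ⟨(s, ⟨x ^ n, n, rfl⟩), h⟩
      exists_of_eq := fun {s s'} h => by
        obtain ⟨n, hn⟩ := hker s s' h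
        exact ⟨⟨x ^ n, n, rfl⟩, hn⟩ }
  exact IsLocalizedModule.isBaseChange (Submonoid.powers x) R' f

/-- "Raw" sections data over a cospan `R₀ → R₀₁ ← R₁` of `A`-algebras: modules over rings
`S₀, S₁, S₀₁` isomorphic to `R₀, R₁, R₀₁`, with restriction maps which are localizations at
`x₀ ∈ R₀`, `x₁ ∈ R₁`. -/
structure RawGlue (A R₀ R₁ R₀₁ : Type u) [CommRing A] [CommRing R₀] [CommRing R₁]
    [CommRing R₀₁] [Algebra A R₀] [Algebra A R₁] [Algebra A R₀₁] [Algebra R₀ R₀₁]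
    [Algebra R₁ R₀₁] [IsScalarTower A R₀ R₀₁] [IsScalarTower A R₁ R₀₁] where
  S₀ : Type u
  S₁ : Type u
  S₀₁ : Type u
  [commRing₀ : CommRing S₀]
  [commRing₁ : CommRing S₁]
  [commRing₀₁ : CommRing S₀₁]
  j₀ : R₀ ≃+* S₀
  j₁ : R₁ ≃+* S₁
  j₀₁ : R₀₁ ≃+* S₀₁
  ρ₀ : S₀ →+* S₀₁
  ρ₁ : S₁ →+* S₀₁
  hρ₀ : ∀ r, ρ₀ (j₀ r) = j₀₁ (algebraMap R₀ R₀₁ r)
  hρ₁ : ∀ r, ρ₁ (j₁ r) = j₀₁ (algebraMap R₁ R₀₁ r)
  N₀ : Type u
  N₁ : Type u
  N₀₁ : Type u
  [addCommGroup₀ : AddCommGroup N₀]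
  [addCommGroup₁ : AddCommGroup N₁]
  [addCommGroup₀₁ : AddCommGroup N₀₁]
  [module₀ : Module S₀ N₀]
  [module₁ : Module S₁ N₁]
  [module₀₁ : Module S₀₁ N₀₁]
  r₀ : N₀ →+ N₀₁
  r₁ : N₁ →+ N₀₁
  hr₀ : ∀ (s : S₀) (n : N₀), r₀ (s • n) = ρ₀ s • r₀ n
  hr₁ : ∀ (s : S₁) (n : N₁), r₁ (s • n) = ρ₁ s • r₁ n
  x₀ : R₀
  x₁ : R₁
  away₀ : IsLocalization.Away x₀ R₀₁
  away₁ : IsLocalization.Away x₁ R₀₁
  surj₀ : ∀ t : N₀₁, ∃ (n : ℕ) (s : N₀), ρ₀ (j₀ x₀ ^ n) • t = r₀ s
  surj₁ : ∀ t : N₀₁, ∃ (n : ℕ) (s : N₁), ρ₁ (j₁ x₁ ^ n) • t = r₁ s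
  ker₀ : ∀ s s' : N₀, r₀ s = r₀ s' → ∃ n : ℕ, (j₀ x₀ ^ n) • s = (j₀ x₀ ^ n) • s'
  ker₁ : ∀ s s' : N₁, r₁ s = r₁ s' → ∃ n : ℕ, (j₁ x₁ ^ n) • s = (j₁ x₁ ^ n) • s'
  inv₀ : Module.Invertible S₀ N₀
  inv₁ : Module.Invertible S₁ N₁

namespace RawGlue

attribute [instance] commRing₀ commRing₁ commRing₀₁ addCommGroup₀ addCommGroup₁ addCommGroup₀₁
  module₀ module₁ module₀₁

variable {A R₀ R₁ R₀₁ : Type u} [CommRing A] [CommRing R₀] [CommRing R₁]
    [CommRing R₀₁] [Algebra A R₀] [Algebra A R₁] [Algebra A R₀₁] [Algebra R₀ R₀₁]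
    [Algebra R₁ R₀₁] [IsScalarTower A R₀ R₀₁] [IsScalarTower A R₁ R₀₁]
    (D : RawGlue A R₀ R₁ R₀₁)

/-- the `R₀`-module structure on `N₀` -/
@[reducible] def modR₀ : Module R₀ D.N₀ := Module.compHom D.N₀ D.j₀.toRingHom
/-- the `R₁`-module structure on `N₁` -/
@[reducible] def modR₁ : Module R₁ D.N₁ := Module.compHom D.N₁ D.j₁.toRingHom
/-- the `R₀₁`-module structure on `N₀₁` -/
@[reducible] def modR₀₁ : Module R₀₁ D.N₀₁ := Module.compHom D.N₀₁ D.j₀₁.toRingHom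
/-- the `R₀`-module structure on `N₀₁` -/
@[reducible] def modL : Module R₀ D.N₀₁ :=
  Module.compHom D.N₀₁ (D.j₀₁.toRingHom.comp (algebraMap R₀ R₀₁))
/-- the `R₁`-module structure on `N₀₁` -/
@[reducible] def modR : Module R₁ D.N₀₁ :=
  Module.compHom D.N₀₁ (D.j₀₁.toRingHom.comp (algebraMap R₁ R₀₁))
/-- the `A`-module structure on `N₀` -/
@[reducible] def modA₀ : Module A D.N₀ :=
  Module.compHom D.N₀ (D.j₀.toRingHom.comp (algebraMap A R₀))
/-- the `A`-module structure on `N₁` -/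
@[reducible] def modA₁ : Module A D.N₁ :=
  Module.compHom D.N₁ (D.j₁.toRingHom.comp (algebraMap A R₁))
/-- the `A`-module structure on `N₀₁` -/
@[reducible] def modA₀₁ : Module A D.N₀₁ :=
  Module.compHom D.N₀₁ (D.j₀₁.toRingHom.comp (algebraMap A R₀₁))

theorem towerL' : letI := D.modR₀₁; letI := D.modL; IsScalarTower R₀ R₀₁ D.N₀₁ :=
  letI := D.modR₀₁
  letI := D.modL
  ⟨fun r s n => by
    change D.j₀₁ (r • s) • n = D.j₀₁ (algebraMap R₀ R₀₁ r) • (D.j₀₁ s • n)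
    rw [Algebra.smul_def, map_mul, mul_smul]⟩

theorem towerR' : letI := D.modR₀₁; letI := D.modR; IsScalarTower R₁ R₀₁ D.N₀₁ :=
  letI := D.modR₀₁
  letI := D.modR
  ⟨fun r s n => by
    change D.j₀₁ (r • s) • n = D.j₀₁ (algebraMap R₁ R₀₁ r) • (D.j₀₁ s • n)
    rw [Algebra.smul_def, map_mul, mul_smul]⟩

/-- the gluing datum of a raw sections datum -/
noncomputable def toGlueDatum : GlueDatum A R₀ R₁ R₀₁ :=
  letI := D.modR₀
  letI := D.modR₁
  letI := D.modR₀₁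
  letI := D.modL
  letI := D.modR
  letI := D.modA₀
  letI := D.modA₁
  letI := D.modA₀₁
  haveI := D.towerL'
  haveI := D.towerR'
  { N₀ := D.N₀
    N₁ := D.N₁
    N₀₁ := D.N₀₁
    baseTower₀ := ⟨fun a r n => by
      change D.j₀ (a • r) • n = D.j₀ (algebraMap A R₀ a) • (D.j₀ r • n)
      rw [Algebra.smul_def, map_mul, mul_smul]⟩
    baseTower₁ := ⟨fun a r n => by
      change D.j₁ (a • r) • n = D.j₁ (algebraMap A R₁ a) • (D.j₁ r • n)
      rw [Algebra.smul_def, map_mul, mul_smul]⟩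
    baseTower₀₁ := ⟨fun a r n => by
      change D.j₀₁ (a • r) • n = D.j₀₁ (algebraMap A R₀₁ a) • (D.j₀₁ r • n)
      rw [Algebra.smul_def, map_mul, mul_smul]⟩
    r₀ :=
      { toFun := D.r₀
        map_add' := D.r₀.map_add
        map_smul' := fun r n => by
          change D.r₀ (D.j₀ r • n) = D.j₀₁ (algebraMap R₀ R₀₁ r) • D.r₀ n
          rw [D.hr₀, D.hρ₀] }
    r₁ :=
      { toFun := D.r₁
        map_add' := D.r₁.map_add
        map_smul' := fun r n => by
          change D.r₁ (D.j₁ r • n) = D.j₀₁ (algebraMap R₁ R₀₁ r) • D.r₁ n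
          rw [D.hr₁, D.hρ₁] }
    isBaseChange₀ := by
      haveI := D.away₀
      refine isBaseChange_of_away D.x₀ _ (fun t => ?_) (fun s s' h => ?_)
      · obtain ⟨n, s, h⟩ := D.surj₀ t
        refine ⟨n, s, ?_⟩
        change D.j₀₁ (algebraMap R₀ R₀₁ (D.x₀ ^ n)) • t = D.r₀ s
        rw [← D.hρ₀, map_pow]
        exact h
      · obtain ⟨n, hn⟩ := D.ker₀ s s' h
        refine ⟨n, ?_⟩
        change D.j₀ (D.x₀ ^ n) • s = D.j₀ (D.x₀ ^ n) • s'
        rw [map_pow]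
        exact hn
    isBaseChange₁ := by
      haveI := D.away₁
      refine isBaseChange_of_away D.x₁ _ (fun t => ?_) (fun s s' h => ?_)
      · obtain ⟨n, s, h⟩ := D.surj₁ t
        refine ⟨n, s, ?_⟩
        change D.j₀₁ (algebraMap R₁ R₀₁ (D.x₁ ^ n)) • t = D.r₁ s
        rw [← D.hρ₁, map_pow]
        exact h
      · obtain ⟨n, hn⟩ := D.ker₁ s s' h
        refine ⟨n, ?_⟩
        change D.j₁ (D.x₁ ^ n) • s = D.j₁ (D.x₁ ^ n) • s'
        rw [map_pow]
        exact hn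
    invertible₀ := by
      haveI := D.inv₀
      exact invertible_of_ringEquiv D.j₀ D.N₀ (fun _ _ => rfl)
    invertible₁ := by
      haveI := D.inv₁
      exact invertible_of_ringEquiv D.j₁ D.N₁ (fun _ _ => rfl) }

/-- a semilinear base change `N₁ → T` over `S₁` gives one over `R₁` for the gluing datum -/
theorem exists_semilinearBaseChange {T : Type u} [CommRing T] (ε : R₁ →+* T)
    (ψ : D.S₁ →+* T) (hψ : ∀ r, ψ (D.j₁ r) = ε r) (b₀ : D.N₁ →ₛₗ[ψ] T)
    (hb₀ : IsSemilinearBaseChange ψ b₀) :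
    ∃ b : D.toGlueDatum.N₁ →ₛₗ[ε] T, IsSemilinearBaseChange ε b := by
  letI := D.modR₁
  let b : D.N₁ →ₛₗ[ε] T :=
    { toFun := fun n => b₀ n
      map_add' := b₀.map_add
      map_smul' := fun r n => by
        change b₀ (D.j₁ r • n) = ε r • b₀ n
        rw [b₀.map_smulₛₗ, hψ] }
  exact ⟨b, isSemilinearBaseChange_of_ringEquiv D.j₁ ε ψ hψ (fun _ _ => rfl) b₀ hb₀ b
    (fun _ => rfl)⟩

end RawGlue

end Fermat.Agent.S25.H85
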