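import Mathlib
import Fermat.Agent.S25.DefsDict
import Fermat.Agent.S25.H85.AffineSections
import Fermat.Agent.S25.H85.ChartRing
import Fermat.Agent.S25.H85.RawGlue

/-!
# S25 / DICT (helper85): `Stmt.DictSections`

Every rigidified line bundle on `C_A` has a gluing datum of sections, and it is rigidifiable.
-/

set_option autoImplicit false
set_option linter.style.haveILetI false

universe u

open CategoryTheory CategoryTheory.Limits AlgebraicGeometry AlgebraicGeometry.RelPicard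
  NeronModelInfra Opposite TopologicalSpace
open scoped TensorProduct

namespace Fermat.Agent.S25.H85

noncomputable section

variable {k : Type u} [Field k] {C : Scheme.{u}} {c : C ⟶ Spec (CommRingCat.of k)}
  {ε : SchemeHomOver (𝟙 (Spec (CommRingCat.of k))) c} (Ch : ChartOf c ε)
  (A : Type u) [CommRing A] [Algebra k A]

section Chart

theorem isAffineOpen_inf : IsAffineOpen (Ch.U₀ ⊓ Ch.U₁) := by
  rw [Ch.inf_eq₀]
  exact Ch.isAffine₀.basicOpen _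

lemma sectionsStr_res {U U' : C.Opens} (h : U' ≤ U) (a : k) :
    resRing h (sectionsStr c U a) = sectionsStr c U' a := by
  simp only [resRing, sectionsStr, CommRingCat.hom_comp, RingHom.comp_apply]
  rw [← CommRingCat.comp_apply, ← Functor.map_comp]
  rfl

theorem i₀₁_str (a : k) :
    Ch.i₀₁ (sectionsStr c (Ch.U₀ ⊓ Ch.U₁) a) = algebraMap k Ch.B₀₁ a := by
  rw [← sectionsStr_res (c := c) inf_le_left a, Ch.i₀₁_res₀, Ch.i₀_str,
    ← IsScalarTower.algebraMap_apply]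

/-- `A ⊗ B₀₁` is the localization of `A ⊗ B₀` at `1 ⊗ x`. -/
theorem away_tensor₀ : IsLocalization.Away ((1 : A) ⊗ₜ[k] Ch.x) (A ⊗[k] Ch.B₀₁) := by
  haveI := Ch.isCurveChart.away₀
  have h := IsLocalization.tensorProduct_tensorProduct_right k A (Submonoid.powers Ch.x) Ch.B₀₁
    (by ext b; simp [RingHom.algebraMap_toAlgebra, tensorMapRight])
  rw [Submonoid.map_powers] at h
  exact h

/-- `A ⊗ B₀₁` is the localization of `A ⊗ B₁` at `1 ⊗ y`. -/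
theorem away_tensor₁ : IsLocalization.Away ((1 : A) ⊗ₜ[k] Ch.y) (A ⊗[k] Ch.B₀₁) := by
  haveI := Ch.isCurveChart.away₁
  have h := IsLocalization.tensorProduct_tensorProduct_right k A (Submonoid.powers Ch.y) Ch.B₀₁
    (by ext b; simp [RingHom.algebraMap_toAlgebra, tensorMapRight])
  rw [Submonoid.map_powers] at h
  exact h

end Chart

section Raw

variable {A}
variable (L : (pullback c (specStr k A)).Modules) (hL : Scheme.Modules.IsInvertible L)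

/-- the preimage of `U₀` -/
abbrev V₀ : (pullback c (specStr k A)).Opens := preimageOpen (c := c) A Ch.U₀
/-- the preimage of `U₁` -/
abbrev V₁ : (pullback c (specStr k A)).Opens := preimageOpen (c := c) A Ch.U₁
/-- the preimage of `U₀ ⊓ U₁` -/
abbrev V₀₁ : (pullback c (specStr k A)).Opens := preimageOpen (c := c) A (Ch.U₀ ⊓ Ch.U₁)

lemma V₀₁_le_V₀ : V₀₁ Ch (A := A) ≤ V₀ Ch := Scheme.Hom.preimage_mono _ inf_le_left
lemma V₀₁_le_V₁ : V₀₁ Ch (A := A) ≤ V₁ Ch := Scheme.Hom.preimage_mono _ inf_le_right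

/-- the chart isomorphism over `U₀` -/
abbrev J₀ : A ⊗[k] Ch.B₀ ≃+* Γ(pullback c (specStr k A), V₀ Ch) :=
  chartEquiv Ch.isAffine₀ Ch.i₀ Ch.i₀_str
/-- the chart isomorphism over `U₁` -/
abbrev J₁ : A ⊗[k] Ch.B₁ ≃+* Γ(pullback c (specStr k A), V₁ Ch) :=
  chartEquiv Ch.isAffine₁ Ch.i₁ Ch.i₁_str
/-- the chart isomorphism over `U₀ ⊓ U₁` -/
abbrev J₀₁ : A ⊗[k] Ch.B₀₁ ≃+* Γ(pullback c (specStr k A), V₀₁ Ch) :=
  chartEquiv (isAffineOpen_inf Ch) Ch.i₀₁ (i₀₁_str Ch)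

lemma V₀₁_eq_basicOpen₀ :
    V₀₁ Ch (A := A) = (pullback c (specStr k A)).basicOpen (J₀ Ch (A := A) (1 ⊗ₜ[k] Ch.x)) := by
  rw [chartEquiv_one_tmul, curveToSections, ← Scheme.preimage_basicOpen, ← Ch.inf_eq₀]

lemma V₀₁_eq_basicOpen₁ :
    V₀₁ Ch (A := A) = (pullback c (specStr k A)).basicOpen (J₁ Ch (A := A) (1 ⊗ₜ[k] Ch.y)) := by
  rw [chartEquiv_one_tmul, curveToSections, ← Scheme.preimage_basicOpen, ← Ch.inf_eq₁]

include hL in
/-- the raw sections datum of an invertible module on `C_A` -/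
def rawOfModule : RawGlue A (A ⊗[k] Ch.B₀) (A ⊗[k] Ch.B₁) (A ⊗[k] Ch.B₀₁) :=
  haveI : L.IsQuasicoherent := H445.isQuasicoherent_of_isInvertible hL
  { S₀ := Γ(pullback c (specStr k A), V₀ Ch)
    S₁ := Γ(pullback c (specStr k A), V₁ Ch)
    S₀₁ := Γ(pullback c (specStr k A), V₀₁ Ch)
    j₀ := J₀ Ch
    j₁ := J₁ Ch
    j₀₁ := J₀₁ Ch
    ρ₀ := resRing (V₀₁_le_V₀ Ch)
    ρ₁ := resRing (V₀₁_le_V₁ Ch)
    hρ₀ := fun r => (chartEquiv_tensorMapRight Ch.isAffine₀ (isAffineOpen_inf Ch) inf_le_left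
      Ch.i₀ Ch.i₀_str Ch.i₀₁ (i₀₁_str Ch) Ch.i₀₁_res₀ r).symm
    hρ₁ := fun r => (chartEquiv_tensorMapRight Ch.isAffine₁ (isAffineOpen_inf Ch) inf_le_right
      Ch.i₁ Ch.i₁_str Ch.i₀₁ (i₀₁_str Ch) Ch.i₀₁_res₁ r).symm
    N₀ := Γ(L, V₀ Ch)
    N₁ := Γ(L, V₁ Ch)
    N₀₁ := Γ(L, V₀₁ Ch)
    r₀ := resMod L (V₀₁_le_V₀ Ch)
    r₁ := resMod L (V₀₁_le_V₁ Ch)
    hr₀ := fun s n => resMod_smul L _ s n
    hr₁ := fun s n => resMod_smul L _ s n
    x₀ := 1 ⊗ₜ[k] Ch.x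
    x₁ := 1 ⊗ₜ[k] Ch.y
    away₀ := away_tensor₀ Ch A
    away₁ := away_tensor₁ Ch A
    surj₀ := fun t => exists_pow_smul_eq_resMod (isAffineOpen_preimageOpen c A Ch.isAffine₀) L
      _ (V₀₁_eq_basicOpen₀ Ch) (V₀₁_le_V₀ Ch) t
    surj₁ := fun t => exists_pow_smul_eq_resMod (isAffineOpen_preimageOpen c A Ch.isAffine₁) L
      _ (V₀₁_eq_basicOpen₁ Ch) (V₀₁_le_V₁ Ch) t
    ker₀ := fun s s' h => exists_pow_smul_eq_of_resMod_eq
      (isAffineOpen_preimageOpen c A Ch.isAffine₀) L _ (V₀₁_eq_basicOpen₀ Ch) (V₀₁_le_V₀ Ch) s s' h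
    ker₁ := fun s s' h => exists_pow_smul_eq_of_resMod_eq
      (isAffineOpen_preimageOpen c A Ch.isAffine₁) L _ (V₀₁_eq_basicOpen₁ Ch) (V₀₁_le_V₁ Ch) s s' h
    inv₀ := invertible_sections (isAffineOpen_preimageOpen c A Ch.isAffine₀) L hL
    inv₁ := invertible_sections (isAffineOpen_preimageOpen c A Ch.isAffine₁) L hL }

/-- the gluing datum of sections of an invertible module on `C_A` -/
def sectionsGD : CurveGD k Ch.B₀ Ch.B₁ Ch.B₀₁ A := (rawOfModule Ch L hL).toGlueDatum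

theorem corr_sectionsGD : Corr Ch A L (sectionsGD Ch L hL) := by
  refine ⟨AddEquiv.refl _, AddEquiv.refl _, AddEquiv.refl _, ⟨?_, ?_⟩, ⟨?_, ?_⟩, ⟨?_, ?_⟩,
    fun s => rfl, fun s => rfl⟩
  · intro a s
    change _ = J₀ Ch (A := A) (a ⊗ₜ[k] (1 : Ch.B₀)) • s
    rw [chartEquiv_tmul_one]
    rfl
  · intro f s
    change _ = J₀ Ch (A := A) ((1 : A) ⊗ₜ[k] Ch.i₀ f) • s
    rw [chartEquiv_one_tmul, RingEquiv.symm_apply_apply]
    rfl
  · intro a s
    change _ = J₁ Ch (A := A) (a ⊗ₜ[k] (1 : Ch.B₁)) • s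
    rw [chartEquiv_tmul_one]
    rfl
  · intro f s
    change _ = J₁ Ch (A := A) ((1 : A) ⊗ₜ[k] Ch.i₁ f) • s
    rw [chartEquiv_one_tmul, RingEquiv.symm_apply_apply]
    rfl
  · intro a s
    change _ = J₀₁ Ch (A := A) (a ⊗ₜ[k] (1 : Ch.B₀₁)) • s
    rw [chartEquiv_tmul_one]
    rfl
  · intro f s
    change _ = J₀₁ Ch (A := A) ((1 : A) ⊗ₜ[k] Ch.i₀₁ f) • s
    rw [chartEquiv_one_tmul, RingEquiv.symm_apply_apply]
    rfl

end Raw

end

end Fermat.Agent.S25.H85
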