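import Mathlib
import Fermat.Agent.S25.DefsDict
import Fermat.Agent.S25.H85.DictSections
import Fermat.Agent.S25.H85.RigAlg

/-!
# S25 / DICT (helper85): the gluing datum of sections of a rigidified bundle is rigidifiable
-/

set_option autoImplicit false
set_option linter.style.haveILetI false

universe u

open CategoryTheory CategoryTheory.Limits AlgebraicGeometry AlgebraicGeometry.RelPicard
  NeronModelInfra Opposite TopologicalSpace
open scoped TensorProduct

namespace Fermat.Agent.S25.H85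

noncomputable section

variable {k : Type u} [Field k] {C : Scheme.{u}} {c : C ⟶ Spec (CommRingCat.of k)}
  {ε : SchemeHomOver (𝟙 (Spec (CommRingCat.of k))) c} (Ch : ChartOf c ε)
  (A : Type u) [CommRing A] [Algebra k A]

section Sigma

variable (c ε)

/-- the rigidifying section of `C_A → Spec A` -/
abbrev sig : Spec (CommRingCat.of A) ⟶ pullback c (specStr k A) := rigSection c (specStr k A) ε

lemma sig_fst : sig c ε A ≫ pullback.fst c (specStr k A) = specStr k A ≫ ε.1 := by
  unfold sig rigSection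
  exact pullback.lift_fst _ _ _

lemma sig_snd : sig c ε A ≫ pullback.snd c (specStr k A) = 𝟙 _ := by
  unfold sig rigSection
  exact pullback.lift_snd _ _ _

end Sigma

lemma sig_preimage_V₁ : sig c ε A ⁻¹ᵁ V₁ Ch (A := A) = ⊤ := by
  rw [V₁, preimageOpen, ← Scheme.Hom.comp_preimage, sig_fst, Scheme.Hom.comp_preimage,
    Ch.eps_mem]
  rfl

lemma top_le_sig_preimage_V₁ : (⊤ : (Spec (CommRingCat.of A)).Opens) ≤ sig c ε A ⁻¹ᵁ V₁ Ch :=
  le_of_eq (sig_preimage_V₁ Ch A).symm

/-- the ring map `Γ(C_A, V₁) → A` induced by the rigidifying section -/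
def sigRing : Γ(pullback c (specStr k A), V₁ Ch (A := A)) ⟶ CommRingCat.of A :=
  (sig c ε A).appLE (V₁ Ch) ⊤ (top_le_sig_preimage_V₁ Ch A) ≫
    (Scheme.ΓSpecIso (CommRingCat.of A)).hom

lemma SpecMap_sigRing_fromSpec :
    Spec.map (sigRing Ch A) ≫ (isAffineOpen_preimageOpen c A Ch.isAffine₁).fromSpec =
      sig c ε A := by
  rw [sigRing, Spec.map_comp, Category.assoc,
    IsAffineOpen.SpecMap_appLE_fromSpec (sig c ε A) (isAffineOpen_preimageOpen c A Ch.isAffine₁)
      (isAffineOpen_top _), IsAffineOpen.fromSpec_top, Scheme.isoSpec_Spec_inv,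
    ← Spec.map_comp_assoc, Iso.inv_hom_id, Spec.map_id, Category.id_comp]

/-- `appLE` only depends on the morphism up to equality. -/
lemma appLE_congr_hom' {X Y : Scheme.{u}} {f g : X ⟶ Y} (h : f = g) (U : Y.Opens)
    (V : X.Opens) (e : V ≤ f ⁻¹ᵁ U) : f.appLE U V e = g.appLE U V (h ▸ e) := by
  subst h; rfl

lemma id_appLE_top (X : Scheme.{u}) (e : (⊤ : X.Opens) ≤ (𝟙 X) ⁻¹ᵁ ⊤) :
    (𝟙 X : X ⟶ X).appLE ⊤ ⊤ e = 𝟙 _ := by
  simp only [Scheme.Hom.appLE, Scheme.Hom.id_app]
  exact X.presheaf.map_id _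

lemma appLE_top_top {X Y : Scheme.{u}} (f : X ⟶ Y) (e : (⊤ : X.Opens) ≤ f ⁻¹ᵁ ⊤) :
    f.appLE ⊤ ⊤ e = f.appTop := by
  simp only [Scheme.Hom.appLE, Scheme.Hom.appTop]
  exact (congrArg (fun m => f.app ⊤ ≫ m) (X.presheaf.map_id _)).trans (Category.comp_id _)

lemma snd_appLE_sigRing :
    (pullback.snd c (specStr k A)).appLE ⊤ (V₁ Ch (A := A)) (le_preimage_top' _ _) ≫
      sigRing Ch A = (Scheme.ΓSpecIso (CommRingCat.of A)).hom := by
  rw [sigRing, Scheme.Hom.appLE_comp_appLE_assoc, appLE_congr_hom' (sig_snd c ε A),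
    id_appLE_top, Category.id_comp]

lemma sigRing_baseToSections (a : A) :
    (sigRing Ch A).hom (baseToSections (c := c) A (V₁ Ch) a) = a := by
  rw [baseToSections_eq]
  have := congr($(snd_appLE_sigRing Ch A) ((Scheme.ΓSpecIso (CommRingCat.of A)).inv a))
  simpa using this

lemma fst_appLE_sigRing :
    (pullback.fst c (specStr k A)).appLE Ch.U₁ (V₁ Ch (A := A)) le_rfl ≫ sigRing Ch A =
      ε.1.appLE Ch.U₁ ⊤ (le_of_eq Ch.eps_mem.symm) ≫ (Scheme.ΓSpecIso (CommRingCat.of k)).hom ≫
        CommRingCat.ofHom (algebraMap k A) := by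
  rw [sigRing, Scheme.Hom.appLE_comp_appLE_assoc, appLE_congr_hom' (sig_fst c ε A),
    ← Scheme.ΓSpecIso_naturality (CommRingCat.ofHom (algebraMap k A)),
    ← appLE_top_top _ (le_preimage_top' _ _), Scheme.Hom.appLE_comp_appLE_assoc]

lemma sigRing_curveToSections (f : Γ(C, Ch.U₁)) :
    (sigRing Ch A).hom (curveToSections (c := c) A Ch.U₁ f) =
      algebraMap k A (evalAt c ε Ch.U₁ Ch.eps_mem f) := by
  rw [curveToSections_eq]
  have := congr($(fst_appLE_sigRing Ch A) f)
  simpa [evalAt] using this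

theorem sigRing_J₁ (r : A ⊗[k] Ch.B₁) :
    (sigRing Ch A).hom (J₁ Ch (A := A) r) = epsHom Ch.e A r := by
  induction r using TensorProduct.induction_on with
  | zero => simp
  | add z w hz hw => simp only [map_add, hz, hw]
  | tmul a b =>
    rw [chartEquiv_tmul, map_mul, sigRing_baseToSections, sigRing_curveToSections,
      ← Ch.e_eq, RingEquiv.apply_symm_apply]
    simp [epsHom]

section Iso

variable {A}
variable (M : RigidifiedLineBundle c ε (specStr k A))

/-- sections of the restriction of `M.L` to the chart `V₁`, as a module over `Γ(C_A, V₁)` -/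
abbrev chartModule : ModuleCat Γ(pullback c (specStr k A), V₁ Ch (A := A)) :=
  (moduleSpecΓFunctor (R := Γ(pullback c (specStr k A), V₁ Ch (A := A)))).obj
    (M.L.restrict (isAffineOpen_preimageOpen c A Ch.isAffine₁).fromSpec)

/-- the base change of the chart module along the rigidifying section is trivial -/
def extendScalarsChartModuleIso :
    (ModuleCat.extendScalars (sigRing Ch A).hom).obj (chartModule Ch M) ≅
      ModuleCat.of A A := by
  let φ₁ := (isAffineOpen_preimageOpen c A Ch.isAffine₁).fromSpec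
  let e1 : (Scheme.Modules.pullback (sig c ε A)).obj M.L ≅
      SheafOfModules.unit (Spec (CommRingCat.of A)).ringCatSheaf := M.rigidified.some
  let e2 := (Scheme.Modules.pullbackCongr (SpecMap_sigRing_fromSpec Ch A)).app M.L
  let e3 := (Scheme.Modules.pullbackComp (Spec.map (sigRing Ch A)) φ₁).app M.L
  let e4 := (Scheme.Modules.restrictFunctorIsoPullback φ₁).app M.L
  let e5 : tilde (chartModule Ch M) ≅ M.L.restrict φ₁ :=
    H445.isoTildeΓ (isInvertible_restrict φ₁ M.isInvertible)
  let e6 := H445.pullbackTildeObjIso (sigRing Ch A) (chartModule Ch M)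
  let e : (tilde.functor (CommRingCat.of A)).obj
        ((ModuleCat.extendScalars (sigRing Ch A).hom).obj (chartModule Ch M)) ≅
      (tilde.functor (CommRingCat.of A)).obj (ModuleCat.of A A) :=
    e6.symm ≪≫ (Scheme.Modules.pullback (Spec.map (sigRing Ch A))).mapIso (e5 ≪≫ e4) ≪≫
      e3 ≪≫ e2 ≪≫ e1 ≪≫ tildeSelf.symm
  exact tilde.fullyFaithfulFunctor.preimageIso e

/-- the base change of the sections over `V₁` along the rigidifying section is trivial -/
def tensorEquivSelf :
    letI := (sigRing Ch A).hom.toAlgebra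
    A ⊗[Γ(pullback c (specStr k A), V₁ Ch (A := A))] Γ(M.L, V₁ Ch (A := A)) ≃ₗ[A] A :=
  letI := (sigRing Ch A).hom.toAlgebra
  (H445.extendScalarsEquivTensorAux (sigRing Ch A).hom
      (ModuleCat.of Γ(pullback c (specStr k A), V₁ Ch (A := A)) Γ(M.L, V₁ Ch (A := A)))).symm ≪≫ₗ
    ((ModuleCat.extendScalars (sigRing Ch A).hom).mapIso
      (sectionsEquivRestrict (isAffineOpen_preimageOpen c A Ch.isAffine₁) M.L).toModuleIso ≪≫
      extendScalarsChartModuleIso Ch M).toLinearEquiv

theorem rigidifiable_sectionsGD : (sectionsGD Ch M.L M.isInvertible).Rigidifiable Ch.e := by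
  letI := (sigRing Ch A).hom.toAlgebra
  let e := tensorEquivSelf Ch M
  let b₀ := semilinearOfTensor (sigRing Ch A).hom (N := Γ(M.L, V₁ Ch (A := A))) e.toLinearMap
  have hb₀ : IsSemilinearBaseChange (sigRing Ch A).hom b₀ :=
    isSemilinearBaseChange_of_tensorEquiv (sigRing Ch A).hom e
  exact RawGlue.exists_semilinearBaseChange (rawOfModule Ch M.L M.isInvertible)
    (epsHom Ch.e A).toRingHom (sigRing Ch A).hom (sigRing_J₁ Ch A) b₀ hb₀

end Iso

/-- **DICT-SEC**: every rigidified line bundle on `C_A` has a gluing datum of sections, and it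
is rigidifiable. -/
theorem dictSections : Stmt.DictSections Ch := fun _ _ _ M =>
  ⟨sectionsGD Ch M.L M.isInvertible, corr_sectionsGD Ch M.L M.isInvertible,
    rigidifiable_sectionsGD Ch M⟩

end

end Fermat.Agent.S25.H85
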